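import Mathlib
import Fermat.Agent.S18.H138.Charts

/-!
# S36 / MOD3 — abstract core QEP-UP (helper747)

`α : F' → F` a homomorphism of fields with `F` algebraic over `α F'`; `B' ⊆ F'` a subring which is
integrally closed in `F'`; `V₁', V₂'` valuation subrings of `F'` of rank one ("archimedean",
e.g. discrete valuation rings) containing `w'`, with the LOWER q-expansion principle

    b ∈ B',  b / w' ∈ V₁' ∩ V₂'   ⟹   b / w' ∈ B'.

Let `𝒱` be a set of valuation subrings of `F` which contains every valuation subring `W` of `F`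
lying over `V₁'` or over `V₂'` (COMPLETENESS; e.g. `𝒱 = {V₁, V₂, V₃}`), and let `b ∈ F` be
integral over `α B'`.  If `b / α w' ∈ V` for all `V ∈ 𝒱`, then `b / α w'` is integral over `α B'`
(`isIntegralOver_div_of_forall_mem`).

In chart form (`qep3_chart`): the conclusion of `Eng.Qep3 w (chart R {x}) V₁ V₂ V₃`, VERBATIM
(unfolded), from the lower `Qep2` for `chart R {x'}`, `chart_α`, `int_α` and completeness.

Mathlib only (+ the definition of `chart`).
-/

set_option autoImplicit false
set_option linter.style.haveILetI false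
set_option linter.unusedSectionVars false
set_option linter.unusedVariables false

noncomputable section

namespace Fermat.Agent.S36.H747

open Polynomial

section Arch

variable {K : Type*} [Field K]

/-- The valuation subring `V` has rank at most one: for `z ∉ V` the powers of `z⁻¹` absorb every
element of the field. -/
def Arch (V : ValuationSubring K) : Prop :=
  ∀ z : K, z ∉ V → ∀ f : K, ∃ n : ℕ, f * z⁻¹ ^ n ∈ V

/-- A valuation subring of rank at most one is a maximal proper valuation subring. -/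
theorem Arch.eq_or_eq_top {V : ValuationSubring K} (hV : Arch V) {W : ValuationSubring K}
    (h : V ≤ W) : W = V ∨ ∀ f : K, f ∈ W := by
  by_cases hWV : W ≤ V
  · exact Or.inl (le_antisymm hWV h)
  · right
    obtain ⟨z, hzW, hzV⟩ := SetLike.not_le_iff_exists.1 hWV
    have hz0 : z ≠ 0 := fun h0 => hzV (h0 ▸ V.zero_mem)
    intro f
    obtain ⟨n, hn⟩ := hV z hzV f
    have : f = f * z⁻¹ ^ n * z ^ n := by
      rw [mul_assoc, ← mul_pow, inv_mul_cancel₀ hz0, one_pow, mul_one]
    rw [this]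
    exact W.mul_mem _ _ (h hn) (W.pow_mem hzW n)

/-- A discrete valuation ring has rank one. -/
theorem arch_of_isDiscreteValuationRing (V : ValuationSubring K)
    [IsDiscreteValuationRing V] : Arch V := by
  intro z hz f
  have hz0 : z ≠ 0 := fun h0 => hz (h0 ▸ V.zero_mem)
  have hzi : z⁻¹ ∈ V := (V.mem_or_inv_mem z).resolve_left hz
  by_cases hf : f ∈ V
  · exact ⟨0, by simpa using hf⟩
  have hf0 : f ≠ 0 := fun h0 => hf (h0 ▸ V.zero_mem)
  have hfi : f⁻¹ ∈ V := (V.mem_or_inv_mem f).resolve_left hf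
  -- `z⁻¹` is a non-unit of `V`
  obtain ⟨ϖ, hϖ⟩ := IsDiscreteValuationRing.exists_irreducible V
  have hzinv0 : (⟨z⁻¹, hzi⟩ : V) ≠ 0 := fun h0 => by
    have := congrArg Subtype.val h0
    exact inv_ne_zero hz0 this
  have hfinv0 : (⟨f⁻¹, hfi⟩ : V) ≠ 0 := fun h0 => by
    have := congrArg Subtype.val h0
    exact inv_ne_zero hf0 this
  obtain ⟨a, u, hu⟩ := IsDiscreteValuationRing.eq_unit_mul_pow_irreducible hzinv0 hϖ
  obtain ⟨c, v, hv⟩ := IsDiscreteValuationRing.eq_unit_mul_pow_irreducible hfinv0 hϖ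
  have ha : a ≠ 0 := by
    rintro rfl
    rw [pow_zero, mul_one] at hu
    have hunit : IsUnit (⟨z⁻¹, hzi⟩ : V) := hu ▸ u.isUnit
    obtain ⟨y, hy⟩ := hunit.exists_right_inv
    have hy' : z⁻¹ * (y : K) = 1 := by
      have := congrArg Subtype.val hy
      simpa using this
    have : (y : K) = z := by
      field_simp at hy'
      exact hy'
    exact hz (this ▸ y.2)
  -- `f * (z⁻¹) ^ c = f * u ^ c * ϖ ^ (a c)` and `f = v⁻¹ ϖ ^ (-c)`
  refine ⟨c, ?_⟩
  have hu' : z⁻¹ = (u : V) * (ϖ : K) ^ a := by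
    have := congrArg Subtype.val hu
    simpa using this
  have hv' : f⁻¹ = (v : V) * (ϖ : K) ^ c := by
    have := congrArg Subtype.val hv
    simpa using this
  have hϖ0 : (ϖ : K) ≠ 0 := fun h0 => hϖ.ne_zero (Subtype.ext h0)
  have hv0 : ((v : V) : K) ≠ 0 := fun h0 => v.ne_zero (Subtype.ext h0)
  have hfe : f = ((v⁻¹ : Vˣ) : V) * ((ϖ : K) ^ c)⁻¹ := by
    have h1 : f = (f⁻¹)⁻¹ := (inv_inv f).symm
    rw [h1, hv', mul_inv]
    congr 1
    have hvv : ((v : V) : K) * (((v⁻¹ : Vˣ) : V) : K) = 1 := by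
      have h := congrArg Subtype.val (Units.mul_inv v)
      exact h
    exact (eq_inv_of_mul_eq_one_right hvv).symm ▸ rfl
  have key : f * z⁻¹ ^ c =
      (((v⁻¹ : Vˣ) : V) : K) * ((u : V) : K) ^ c * (ϖ : K) ^ (a * c - c) := by
    rw [hfe, hu', mul_pow, ← pow_mul]
    have hle : c ≤ a * c := Nat.le_mul_of_pos_left c (Nat.pos_of_ne_zero ha)
    have : (ϖ : K) ^ (a * c) = (ϖ : K) ^ (a * c - c) * (ϖ : K) ^ c := by
      rw [← pow_add, Nat.sub_add_cancel hle]
    rw [this]
    field_simp
  rw [key]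
  exact V.mul_mem _ _ (V.mul_mem _ _ (Subtype.mem _) (V.pow_mem (Subtype.mem _) c))
    (V.pow_mem (Subtype.mem _) _)

end Arch

section Core

variable {F F' : Type*} [Field F] [Field F']

/-- `y ∈ F` is integral over `α A`, elementwise: a monic polynomial over `F'` with coefficients in
`A` whose image under `α` kills `y`. -/
def IsIntegralOver (α : F' →+* F) (A : Set F') (y : F) : Prop :=
  ∃ p : F'[X], p.Monic ∧ (∀ i, p.coeff i ∈ A) ∧ (p.map α).eval y = 0

theorem IsIntegralOver.mono {α : F' →+* F} {A A' : Set F'} (h : A ⊆ A') {y : F}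
    (hy : IsIntegralOver α A y) : IsIntegralOver α A' y := by
  obtain ⟨p, hp, hc, he⟩ := hy
  exact ⟨p, hp, fun i => h (hc i), he⟩

/-- **Lemma A.**  If `F` is algebraic over `α F'`, `V'` has rank at most one and `y` lies in every
valuation subring of `F` over `V'`, then `y` is integral over `α V'`. -/
theorem isIntegralOver_of_forall_mem (α : F' →+* F)
    (halg : ∀ y : F, IsIntegralOver α Set.univ y)
    (V' : ValuationSubring F') (hV' : Arch V') (y : F)
    (hy : ∀ W : ValuationSubring F, W.comap α = V' → y ∈ W) :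
    IsIntegralOver α (V' : Set F') y := by
  classical
  set s : Set F := α '' (V' : Set F') with hs
  -- `y` lies in every valuation subring containing `α V'`
  have hmem : y ∈ (⨅ V : {V : ValuationSubring F // s ⊆ V.toSubring}, V.1.toSubring) := by
    rw [Subring.mem_iInf]
    rintro ⟨W, hW⟩
    have hle : V' ≤ W.comap α := fun a ha => hW ⟨a, ha, rfl⟩
    rcases hV'.eq_or_eq_top hle with h | h
    · exact hy W h
    · -- `α F' ⊆ W`, hence `W = F`
      obtain ⟨p, hp, -, he⟩ := halg y
      have hint : IsIntegral W y := by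
        have hlift : p.map α ∈ lifts (algebraMap W F) := by
          rw [lifts_iff_coeff_lifts]
          intro n
          rw [coeff_map]
          exact ⟨⟨α (p.coeff n), h (p.coeff n)⟩, rfl⟩
        obtain ⟨q, hq, -, hqm⟩ := lifts_and_natDegree_eq_and_monic hlift (hp.map α)
        refine ⟨q, hqm, ?_⟩
        rw [← eval_map, hq]
        exact he
      obtain ⟨y', hy'⟩ := (IsIntegrallyClosed.isIntegral_iff (R := W) (K := F)).1 hint
      rw [← hy']
      exact y'.2
  rw [iInf_valuationSubring_superset] at hmem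
  -- a monic polynomial over `Subring.closure s`
  obtain ⟨P, hP, hPy⟩ : IsIntegral (Subring.closure s) y := hmem
  -- `Subring.closure s = α V'`
  have hcl : ∀ c ∈ Subring.closure s, ∃ a ∈ V', α a = c := by
    intro c hc
    have hle : Subring.closure s ≤ V'.toSubring.map α := by
      rw [Subring.closure_le]
      rintro _ ⟨a, ha, rfl⟩
      exact ⟨a, ha, rfl⟩
    obtain ⟨a, ha, rfl⟩ := hle hc
    exact ⟨a, ha, rfl⟩
  let f : V' →+* F := α.comp V'.subtype
  have hlift : P.map (algebraMap (Subring.closure s) F) ∈ lifts f := by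
    rw [lifts_iff_coeff_lifts]
    intro n
    rw [coeff_map]
    obtain ⟨a, ha, hac⟩ := hcl (P.coeff n) (P.coeff n).2
    exact ⟨⟨a, ha⟩, hac⟩
  obtain ⟨q, hq, -, hqm⟩ := lifts_and_natDegree_eq_and_monic hlift (hP.map _)
  refine ⟨q.map V'.subtype, hqm.map _, fun i => ?_, ?_⟩
  · rw [coeff_map]
    exact (q.coeff i).2
  · rw [map_map]
    change (q.map f).eval y = 0
    rw [hq, eval_map]
    exact hPy

/-- **Lemma B.**  If `y` is integral over `α A`, `A` a subring integrally closed in `F'`, then the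
minimal polynomial of `y` over `F'` has coefficients in `A`. -/
theorem minpoly_coeff_mem (α : F' →+* F) (A : Subring F')
    (hA : ∀ z : F', IsIntegral A z → z ∈ A) (y : F)
    (hy : IsIntegralOver α (A : Set F') y) (i : ℕ) :
    (@minpoly F' F _ _ α.toAlgebra y).coeff i ∈ A := by
  letI : Algebra F' F := α.toAlgebra
  obtain ⟨p, hp, hpA, hpy⟩ := hy
  have hpy' : aeval y p = 0 := by
    rw [aeval_def, ← eval_map]
    exact hpy
  have hint : IsIntegral F' y := ⟨p, hp, by rw [← aeval_def]; exact hpy'⟩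
  have hdvd : minpoly F' y ∣ p := minpoly.dvd F' y hpy'
  have hsub : (↑p.coeffs : Set F') ⊆ A := by
    intro c hc
    obtain ⟨n, -, hn⟩ := mem_coeffs_iff.mp hc
    exact hn ▸ hpA n
  have hmap : (p.toSubring A hsub).map (algebraMap A F') = p := map_toSubring p A hsub
  have hmon : (p.toSubring A hsub).Monic := (monic_toSubring p A hsub).2 hp
  have hl := integralClosure.mem_lifts_of_monic_of_dvd_map F' hmon (minpoly.monic hint)
    (by rw [hmap]; exact hdvd)
  rw [lifts_iff_coeff_lifts] at hl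
  obtain ⟨c, hc⟩ := hl i
  rw [← hc]
  exact hA _ c.2

/-- **Lemma C.**  Scaling: the minimal polynomial of `α u * y`. -/
theorem minpoly_mul_coeff (α : F' →+* F) (u : F') (hu : u ≠ 0) (y : F)
    (hy : IsIntegralOver α Set.univ y) (i : ℕ) :
    (@minpoly F' F _ _ α.toAlgebra (α u * y)).coeff i =
      (@minpoly F' F _ _ α.toAlgebra y).coeff i *
        u ^ ((@minpoly F' F _ _ α.toAlgebra y).natDegree - i) := by
  letI : Algebra F' F := α.toAlgebra
  obtain ⟨p, hp, -, hpy⟩ := hy
  have hint : IsIntegral F' y := ⟨p, hp, by rw [← eval_map]; exact hpy⟩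
  have h := IsIntegrallyClosed.minpoly_smul (R := F') (S := F) hu hint
  have hsm : u • y = α u * y := by
    rw [Algebra.smul_def]
    rfl
  rw [hsm] at h
  rw [h, coeff_scaleRoots]

/-- **Lemma D.**  The lower q-expansion principle, iterated. -/
theorem mem_of_mul_pow_mem {B' : Set F'} {w' : F'} (hw0 : w' ≠ 0)
    {V₁' V₂' : ValuationSubring F'} (hw₁ : w' ∈ V₁') (hw₂ : w' ∈ V₂')
    (hqep : ∀ b ∈ B', b * w'⁻¹ ∈ V₁' → b * w'⁻¹ ∈ V₂' → b * w'⁻¹ ∈ B')
    (k : ℕ) (c : F') (hc₁ : c ∈ V₁') (hc₂ : c ∈ V₂') (hcB : c * w' ^ k ∈ B') : c ∈ B' := by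
  induction k with
  | zero => simpa using hcB
  | succ k ih =>
    apply ih
    have e : c * w' ^ k = c * w' ^ (k + 1) * w'⁻¹ := by
      rw [pow_succ, ← mul_assoc, mul_assoc _ w', mul_inv_cancel₀ hw0, mul_one]
    rw [e]
    apply hqep _ hcB
    · rw [← e]; exact V₁'.mul_mem _ _ hc₁ (V₁'.pow_mem hw₁ k)
    · rw [← e]; exact V₂'.mul_mem _ _ hc₂ (V₂'.pow_mem hw₂ k)

/-- **QEP-UP, abstract core.**  See the header. -/
theorem isIntegralOver_div_of_forall_mem (α : F' →+* F)
    (halg : ∀ y : F, IsIntegralOver α Set.univ y)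
    (B' : Subring F') (hB' : ∀ z : F', IsIntegral B' z → z ∈ B')
    (w' : F') (hw0 : w' ≠ 0)
    (V₁' V₂' : ValuationSubring F') (hV₁' : Arch V₁') (hV₂' : Arch V₂')
    (hw₁ : w' ∈ V₁') (hw₂ : w' ∈ V₂')
    (hqep : ∀ b ∈ B', b * w'⁻¹ ∈ V₁' → b * w'⁻¹ ∈ V₂' → b * w'⁻¹ ∈ B')
    (𝒱 : Set (ValuationSubring F))
    (hcomp : ∀ W : ValuationSubring F, W.comap α = V₁' ∨ W.comap α = V₂' → W ∈ 𝒱)
    (b : F) (hb : IsIntegralOver α (B' : Set F') b)
    (hbV : ∀ V ∈ 𝒱, b * (α w')⁻¹ ∈ V) :
    IsIntegralOver α (B' : Set F') (b * (α w')⁻¹) := by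
  letI : Algebra F' F := α.toAlgebra
  set y : F := b * (α w')⁻¹ with hy
  have hαw : α w' ≠ 0 := by rwa [Ne, map_eq_zero]
  have hby : b = α w' * y := by
    rw [hy, mul_comm b, ← mul_assoc, mul_inv_cancel₀ hαw, one_mul]
  -- the minimal polynomial of `y` has coefficients in `V₁' ∩ V₂'`
  have h₁ : IsIntegralOver α (V₁' : Set F') y :=
    isIntegralOver_of_forall_mem α halg V₁' hV₁' y fun W hW => hbV W (hcomp W (Or.inl hW))
  have h₂ : IsIntegralOver α (V₂' : Set F') y :=
    isIntegralOver_of_forall_mem α halg V₂' hV₂' y fun W hW => hbV W (hcomp W (Or.inr hW))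
  have hcl : ∀ V : ValuationSubring F', ∀ z : F', IsIntegral V.toSubring z → z ∈ V.toSubring := by
    intro V z hz
    have hz' : IsIntegral V z := hz
    obtain ⟨z', hz''⟩ := (IsIntegrallyClosed.isIntegral_iff (R := V) (K := F')).1 hz'
    rw [← hz'']
    exact z'.2
  have hm₁ : ∀ i, (minpoly F' y).coeff i ∈ V₁' := fun i =>
    minpoly_coeff_mem α V₁'.toSubring (hcl V₁') y h₁ i
  have hm₂ : ∀ i, (minpoly F' y).coeff i ∈ V₂' := fun i =>
    minpoly_coeff_mem α V₂'.toSubring (hcl V₂') y h₂ i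
  -- the minimal polynomial of `b` has coefficients in `B'`
  have hmb : ∀ i, (minpoly F' b).coeff i ∈ B' := fun i => minpoly_coeff_mem α B' hB' b hb i
  have hmB : ∀ i, (minpoly F' y).coeff i ∈ B' := by
    intro i
    have e := minpoly_mul_coeff α w' hw0 y (halg y) i
    rw [← hby] at e
    have := hmb i
    rw [e] at this
    exact mem_of_mul_pow_mem hw0 hw₁ hw₂ hqep _ _ (hm₁ i) (hm₂ i) this
  obtain ⟨p, hp, -, hpy⟩ := halg y
  have hint : IsIntegral F' y := ⟨p, hp, by rw [← eval_map]; exact hpy⟩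
  refine ⟨minpoly F' y, minpoly.monic hint, hmB, ?_⟩
  rw [eval_map]
  have h := minpoly.aeval F' y
  rw [aeval_def] at h
  exact h

end Core

section Chart

open Fermat.Agent.S18.H138 (chart)

variable {R F F' : Type*} [CommRing R] [Field F] [Field F'] [Algebra R F] [Algebra R F']

/-- The chart is integrally closed in the field. -/
theorem mem_chart_of_isIntegral (S : Set F') (z : F')
    (hz : IsIntegral (chart R S).toSubring z) : z ∈ chart R S := by
  have hz' : IsIntegral (integralClosure (Algebra.adjoin R S) F') z := hz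
  exact isIntegral_trans (R := Algebra.adjoin R S)
    (A := integralClosure (Algebra.adjoin R S) F') z hz'

/-- An element integral over `α (chart R S')`, where `α` maps `chart R S'` into `chart R S`, lies
in `chart R S`. -/
theorem mem_chart_of_isIntegralOver (α : F' →+* F) (S' : Set F') (S : Set F)
    (hα : ∀ b ∈ chart R S', α b ∈ chart R S) (y : F)
    (hy : IsIntegralOver α (chart R S' : Set F') y) : y ∈ chart R S := by
  obtain ⟨p, hp, hc, he⟩ := hy
  have hlift : p.map α ∈ lifts (algebraMap (integralClosure (Algebra.adjoin R S) F) F) := by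
    rw [lifts_iff_coeff_lifts]
    intro n
    rw [coeff_map]
    exact ⟨⟨α (p.coeff n), hα _ (hc n)⟩, rfl⟩
  obtain ⟨q, hq, -, hqm⟩ := lifts_and_natDegree_eq_and_monic hlift (hp.map α)
  have hint : IsIntegral (integralClosure (Algebra.adjoin R S) F) y := by
    refine ⟨q, hqm, ?_⟩
    rw [← eval_map, hq]
    exact he
  exact isIntegral_trans (R := Algebra.adjoin R S)
    (A := integralClosure (Algebra.adjoin R S) F) y hint

/-- **QEP-UP in chart form**: the conclusion is `Eng.Qep3 w (chart R {x}) V₁ V₂ V₃` unfolded.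

Inputs: `α : F' → F` compatible with the `R`-algebra structures, `F` algebraic over `α F'`;
the LOWER q-expansion principle for `chart R S'` and `V₁', V₂'` (rank one, containing `w`);
`chart_α`, `int_α`; COMPLETENESS: every valuation subring of `F` over `V₁'` or `V₂'` is one of
`V₁, V₂, V₃`. -/
theorem qep3_chart (w : R) (α : F' →+* F)
    (hαR : ∀ r : R, α (algebraMap R F' r) = algebraMap R F r)
    (halg : ∀ y : F, ∃ p : F'[X], p.Monic ∧ (p.map α).eval y = 0)
    (S' : Set F') (S : Set F)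
    (V₁ V₂ V₃ : ValuationSubring F) (V₁' V₂' : ValuationSubring F')
    (hw0 : algebraMap R F' w ≠ 0)
    (hw₁ : algebraMap R F' w ∈ V₁') (hw₂ : algebraMap R F' w ∈ V₂')
    (hV₁' : Arch V₁') (hV₂' : Arch V₂')
    (hqep : ∀ b ∈ chart R S', b * (algebraMap R F' w)⁻¹ ∈ V₁' →
      b * (algebraMap R F' w)⁻¹ ∈ V₂' → b * (algebraMap R F' w)⁻¹ ∈ chart R S')
    (hcomp : ∀ W : ValuationSubring F, W.comap α = V₁' ∨ W.comap α = V₂' →
      W = V₁ ∨ W = V₂ ∨ W = V₃)
    (chart_α : ∀ b ∈ chart R S', α b ∈ chart R S)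
    (int_α : ∀ b ∈ chart R S, ∃ p : F'[X], p.Monic ∧
      (∀ i, p.coeff i ∈ chart R S') ∧ (p.map α).eval b = 0) :
    ∀ b : chart R S, (b : F) * (algebraMap R F w)⁻¹ ∈ V₁ →
      (b : F) * (algebraMap R F w)⁻¹ ∈ V₂ → (b : F) * (algebraMap R F w)⁻¹ ∈ V₃ →
      ∃ c : chart R S, b = algebraMap R (chart R S) w * c := by
  intro b hb₁ hb₂ hb₃
  have halg' : ∀ y : F, IsIntegralOver α Set.univ y := fun y => by
    obtain ⟨p, hp, he⟩ := halg y
    exact ⟨p, hp, fun _ => Set.mem_univ _, he⟩
  have key := isIntegralOver_div_of_forall_mem α halg' (chart R S').toSubring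
    (mem_chart_of_isIntegral S') (algebraMap R F' w) hw0 V₁' V₂' hV₁' hV₂' hw₁ hw₂ hqep
    {V₁, V₂, V₃}
    (fun W hW => by
      rcases hcomp W hW with h | h | h
      · exact Or.inl h
      · exact Or.inr (Or.inl h)
      · exact Or.inr (Or.inr h))
    (b : F) (int_α b b.2)
    (by
      intro V hV
      rw [hαR]
      rcases hV with h | h | h
      · rw [h]; exact hb₁
      · rw [h]; exact hb₂
      · rw [Set.mem_singleton_iff.1 h]; exact hb₃)
  rw [hαR] at key
  have hmem : (b : F) * (algebraMap R F w)⁻¹ ∈ chart R S :=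
    mem_chart_of_isIntegralOver α S' S chart_α _ key
  have hwF : algebraMap R F w ≠ 0 := by
    rw [← hαR]
    rwa [Ne, map_eq_zero]
  refine ⟨⟨_, hmem⟩, Subtype.ext ?_⟩
  change (b : F) = algebraMap R F w * ((b : F) * (algebraMap R F w)⁻¹)
  rw [mul_comm (b : F), ← mul_assoc, mul_inv_cancel₀ hwF, one_mul]

end Chart

end Fermat.Agent.S36.H747

end
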